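import Mathlib
import Fermat.Agent.S24.FamilyInfty

/-!
# S28 (Igusa), block W2c: the ring of admissible functions with `t`-expansion over a subring

`t = q^(1/N)`.  For a subring `R ⊆ ℂ` we consider the holomorphic functions `h` on `ℍ` such that
`τ ↦ h (N τ)` has a Laurent `q`-expansion (`fi_P N h`) whose coefficients lie in `R`.  They form a
subring `sy_A N R` of `ℍ → ℂ`, and the expansion is a ring homomorphism
`sy_germ N R : sy_A N R →+* LaurentSeries R`.
-/

set_option autoImplicit false

open UpperHalfPlane ModularForm Filter Topology Function Complex CongruenceSubgroup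
open scoped MatrixGroups Manifold Real
open Fermat.Agent.S23 (alphaN)
open Fermat.Agent.S24

namespace Fermat.Agent.S28

variable (N : ℕ) [NeZero N] (R : Subring ℂ)

/-- the condition defining `sy_A` -/
def sy_P (h : ℍ → ℂ) : Prop :=
  MDiff h ∧ fi_P N h ∧ ∃ L : LaurentSeries R, fi_germ N h = ModularCurve.coeffMap R.subtype L

theorem sy_P_const (c : R) : sy_P N R (fun _ => (c : ℂ)) := by
  refine ⟨mdifferentiable_const, gm_IsMerQ.const _, HahnSeries.C c, ?_⟩
  rw [fi_germ, gm_lq_const]
  show HahnSeries.single 0 (c : ℂ) = ModularCurve.coeffMap R.subtype (HahnSeries.single 0 c)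
  rw [ModularCurve.coeffMap_single]
  rfl

/-- holomorphic functions, admissible at the cusp, with `t`-expansion over `R` -/
def sy_A : Subring (ℍ → ℂ) where
  carrier := {h | sy_P N R h}
  mul_mem' := by
    rintro f g ⟨hf1, hf2, Lf, hLf⟩ ⟨hg1, hg2, Lg, hLg⟩
    refine ⟨hf1.mul hg1, gm_IsMerQ.mul hf2 hg2, Lf * Lg, ?_⟩
    rw [(fi_isGerm N).mul f g hf2 hg2, hLf, hLg, map_mul]
  one_mem' := by
    have := sy_P_const N R 1
    have e : (fun _ : ℍ => (((1 : R) : ℂ))) = (1 : ℍ → ℂ) := by funext z; simp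
    rw [e] at this
    exact this
  add_mem' := by
    rintro f g ⟨hf1, hf2, Lf, hLf⟩ ⟨hg1, hg2, Lg, hLg⟩
    refine ⟨hf1.add hg1, gm_IsMerQ.add hf2 hg2, Lf + Lg, ?_⟩
    rw [(fi_isGerm N).add f g hf2 hg2, hLf, hLg, map_add]
  zero_mem' := by
    have := sy_P_const N R 0
    have e : (fun _ : ℍ => (((0 : R) : ℂ))) = (0 : ℍ → ℂ) := by funext z; simp
    rw [e] at this
    exact this
  neg_mem' := by
    rintro f ⟨hf1, hf2, Lf, hLf⟩
    refine ⟨hf1.neg, gm_IsMerQ.neg hf2, -Lf, ?_⟩
    have : fi_germ N (-f) = -fi_germ N f := gm_lq_neg hf2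
    rw [this, hLf, map_neg]

theorem sy_mem_A {h : ℍ → ℂ} : h ∈ sy_A N R ↔ sy_P N R h := Iff.rfl

theorem sy_coeffMap_injective : Function.Injective (ModularCurve.coeffMap R.subtype) :=
  br_coeffMap_injective R.subtype Subtype.val_injective

/-- the `t`-expansion with coefficients in `R` -/
noncomputable def sy_germFun (h : sy_A N R) : LaurentSeries R := h.2.2.2.choose

theorem sy_germFun_spec (h : sy_A N R) :
    fi_germ N (h : ℍ → ℂ) = ModularCurve.coeffMap R.subtype (sy_germFun N R h) :=
  h.2.2.2.choose_spec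

theorem sy_germFun_eq (h : sy_A N R) {L : LaurentSeries R}
    (hL : fi_germ N (h : ℍ → ℂ) = ModularCurve.coeffMap R.subtype L) : sy_germFun N R h = L :=
  sy_coeffMap_injective R ((sy_germFun_spec N R h).symm.trans hL)

/-- the `t`-expansion as a ring homomorphism -/
noncomputable def sy_germ : sy_A N R →+* LaurentSeries R where
  toFun := sy_germFun N R
  map_one' := by
    apply sy_germFun_eq
    have : fi_germ N ((1 : sy_A N R) : ℍ → ℂ) = 1 := gm_lq_one
    rw [this, map_one]
  map_mul' f g := by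
    apply sy_germFun_eq
    rw [map_mul, ← sy_germFun_spec, ← sy_germFun_spec]
    exact (fi_isGerm N).mul _ _ f.2.2.1 g.2.2.1
  map_zero' := by
    apply sy_germFun_eq
    have : fi_germ N ((0 : sy_A N R) : ℍ → ℂ) = 0 := gm_lq_zero
    rw [this, map_zero]
  map_add' f g := by
    apply sy_germFun_eq
    rw [map_add, ← sy_germFun_spec, ← sy_germFun_spec]
    exact (fi_isGerm N).add _ _ f.2.2.1 g.2.2.1

theorem sy_germ_spec (h : sy_A N R) :
    fi_germ N (h : ℍ → ℂ) = ModularCurve.coeffMap R.subtype (sy_germ N R h) :=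
  sy_germFun_spec N R h

theorem sy_germ_eq (h : sy_A N R) {L : LaurentSeries R}
    (hL : fi_germ N (h : ℍ → ℂ) = ModularCurve.coeffMap R.subtype L) : sy_germ N R h = L :=
  sy_germFun_eq N R h hL

theorem sy_germ_injective : Function.Injective (sy_germ N R) := by
  intro f g hfg
  apply Subtype.ext
  apply (fi_isGerm N).inj _ _ f.2.2.1 g.2.2.1
  rw [sy_germ_spec, sy_germ_spec, hfg]

/-- constants -/
def sy_const (c : R) : sy_A N R := ⟨fun _ => (c : ℂ), sy_P_const N R c⟩

theorem sy_germ_const (c : R) : sy_germ N R (sy_const N R c) = HahnSeries.C c := by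
  apply sy_germ_eq
  show fi_germ N (fun _ => (c : ℂ)) = _
  rw [fi_germ, gm_lq_const]
  show HahnSeries.single 0 (c : ℂ) = ModularCurve.coeffMap R.subtype (HahnSeries.single 0 c)
  rw [ModularCurve.coeffMap_single]
  rfl

end Fermat.Agent.S28
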