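import Mathlib
import Fermat.Prelude.Def_ModularCurve_JqCoeff
import Fermat.Agent.S28.Sym.Subring

/-!
# S28 (Igusa), block W2c: symmetric expressions descend to polynomials in `j`

Given the level-one `q`-expansion principle over a subring `R ⊆ ℂ` in germ form (`sy_QP`, block
W2a), a polynomial over `sy_A N R` which is invariant under `z ↦ δ z` for all `δ ∈ SL(2,ℤ)` is the
image of a polynomial over `R[J]` under `J ↦ j`.  Applied to `∏ (X - g i)` and to Lagrange sums
`∑ u i ∏_{k ≠ i} (X - g k)` for `SL(2,ℤ)`-equivariant families.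
-/

set_option autoImplicit false

open UpperHalfPlane ModularForm Filter Topology Function Complex CongruenceSubgroup Polynomial
open scoped MatrixGroups Manifold Real
open Fermat.Agent.S23 (alphaN)
open Fermat.Agent.S24

namespace Fermat.Agent.S28

variable (N : ℕ) [NeZero N] (R : Subring ℂ)

/-- The level-one `q`-expansion principle over `R`, germ form (supplied by block W2a). -/
def sy_QP : Prop :=
  ∀ h : ℍ → ℂ, sy_P N R h → (∀ (γ : SL(2, ℤ)) (z : ℍ), h (γ • z) = h z) →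
    ∃ P : Polynomial R, ∀ z, h z = (P.map R.subtype).eval (kleinJ z)

/-! ### `j` as an element of `sy_A` -/

theorem sy_gm_lq_of_hasLaurentQ {g : ℍ → ℂ} {f : LaurentSeries ℂ} (h : br_HasLaurentQ g f) :
    gm_IsMerQ g ∧ gm_lq g = f := by
  obtain ⟨m, hQ, he⟩ := h
  refine ⟨⟨m, hQ⟩, ?_⟩
  rw [gm_lq_eq hQ, he, ← mul_assoc, br_single_mul_single]
  simp only [neg_add_cancel]
  rw [show (HahnSeries.single (0 : ℤ) (1 : ℂ) : LaurentSeries ℂ) = 1 from rfl, one_mul]

theorem sy_coeffMap_jqModC : ModularCurve.coeffMap R.subtype (ModularCurve.jqModC R) = br_jqC := by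
  have h1 : ModularCurve.coeffMap R.subtype (ModularCurve.jqModC R) = ModularCurve.jqModC ℂ :=
    ModularCurve.map_jqModC R.subtype
  have h2 : br_jqC = ModularCurve.jqModC ℂ := by
    rw [br_jqC, ← ModularCurve.jqModC_rat]
    exact ModularCurve.map_jqModC (algebraMap ℚ ℂ)
  rw [h1, h2]

theorem sy_coeffMap_qExpand (x : LaurentSeries R) :
    ModularCurve.coeffMap R.subtype (ModularCurve.qExpand R N x) =
      ModularCurve.qExpand ℂ N (ModularCurve.coeffMap R.subtype x) := by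
  ext k
  by_cases hk : (N : ℤ) ∣ k
  · obtain ⟨m, rfl⟩ := hk
    rw [ModularCurve.coeffMap_coeff, ModularCurve.qExpand_coeff_mul,
      ModularCurve.qExpand_coeff_mul, ModularCurve.coeffMap_coeff]
  · rw [ModularCurve.coeffMap_coeff, ModularCurve.qExpand_coeff_of_not_dvd (R := R) N x hk,
      ModularCurve.qExpand_coeff_of_not_dvd (R := ℂ) N _ hk, map_zero]

theorem sy_fi_germ_kleinJ :
    fi_germ N kleinJ = ModularCurve.coeffMap R.subtype (ModularCurve.jqNModC R N) := by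
  have h := sy_gm_lq_of_hasLaurentQ (br_HasLaurentQ_jd N)
  rw [fi_germ_kleinJ, h.2, ModularCurve.jqNModC, sy_coeffMap_qExpand, sy_coeffMap_jqModC]

theorem sy_P_kleinJ : sy_P N R kleinJ :=
  ⟨kleinJ_mdiff, (sy_gm_lq_of_hasLaurentQ (br_HasLaurentQ_jd N)).1, ModularCurve.jqNModC R N,
    sy_fi_germ_kleinJ N R⟩

/-- `j` as an element of `sy_A N R` -/
noncomputable def sy_j : sy_A N R := ⟨kleinJ, sy_P_kleinJ N R⟩

theorem sy_germ_j : sy_germ N R (sy_j N R) = ModularCurve.jqNModC R N :=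
  sy_germ_eq N R _ (sy_fi_germ_kleinJ N R)

/-! ### The map `R[J] → sy_A N R`, `J ↦ j` -/

/-- constants as a ring homomorphism -/
noncomputable def sy_constHom : R →+* sy_A N R where
  toFun := sy_const N R
  map_one' := by apply Subtype.ext; funext z; simp [sy_const]
  map_mul' a b := by apply Subtype.ext; funext z; simp [sy_const]
  map_zero' := by apply Subtype.ext; funext z; simp [sy_const]
  map_add' a b := by apply Subtype.ext; funext z; simp [sy_const]

/-- `R[J] → sy_A N R`, `J ↦ j` -/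
noncomputable def sy_toA : Polynomial R →+* sy_A N R :=
  Polynomial.eval₂RingHom (sy_constHom N R) (sy_j N R)

/-- evaluation of an element of `sy_A N R` at a point -/
def sy_ev (z : ℍ) : sy_A N R →+* ℂ :=
  (Pi.evalRingHom (fun _ : ℍ => ℂ) z).comp (sy_A N R).subtype

theorem sy_ev_apply (z : ℍ) (h : sy_A N R) : sy_ev N R z h = (h : ℍ → ℂ) z := rfl

theorem sy_ev_comp_toA (z : ℍ) :
    (sy_ev N R z).comp (sy_toA N R) =
      (Polynomial.evalRingHom (kleinJ z)).comp (Polynomial.mapRingHom R.subtype) := by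
  apply Polynomial.ringHom_ext
  · intro c
    simp [sy_toA, sy_ev, sy_constHom, sy_const]
  · simp [sy_toA, sy_ev, sy_j]

theorem sy_toA_apply (P : Polynomial R) (z : ℍ) :
    ((sy_toA N R P : sy_A N R) : ℍ → ℂ) z = (P.map R.subtype).eval (kleinJ z) := by
  have h := congrArg (fun f : Polynomial R →+* ℂ => f P) (sy_ev_comp_toA N R z)
  simpa [sy_ev_apply] using h

/-- the expansion of `P(j)` -/
noncomputable def sy_phiJ : Polynomial R →+* LaurentSeries R :=
  (sy_germ N R).comp (sy_toA N R)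

theorem sy_phiJ_eq :
    sy_phiJ N R = Polynomial.eval₂RingHom (HahnSeries.C : R →+* LaurentSeries R)
      (ModularCurve.jqNModC R N) := by
  apply Polynomial.ringHom_ext
  · intro c
    simp only [sy_phiJ, sy_toA, RingHom.comp_apply, Polynomial.coe_eval₂RingHom,
      Polynomial.eval₂_C]
    exact sy_germ_const N R c
  · simp only [sy_phiJ, sy_toA, RingHom.comp_apply, Polynomial.coe_eval₂RingHom,
      Polynomial.eval₂_X]
    exact sy_germ_j N R

/-! ### Descent of invariant polynomials -/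

theorem sy_exists_toA (hqp : sy_QP N R) (c : sy_A N R)
    (hinv : ∀ (δ : SL(2, ℤ)) (z : ℍ), (c : ℍ → ℂ) (δ • z) = (c : ℍ → ℂ) z) :
    ∃ P : Polynomial R, sy_toA N R P = c := by
  obtain ⟨P, hP⟩ := hqp (c : ℍ → ℂ) c.2 hinv
  refine ⟨P, Subtype.ext ?_⟩
  funext z
  rw [sy_toA_apply, hP z]

theorem sy_descend (hqp : sy_QP N R) (Pp : Polynomial (sy_A N R))
    (hinv : ∀ (δ : SL(2, ℤ)) (k : ℕ) (z : ℍ),
      ((Pp.coeff k : sy_A N R) : ℍ → ℂ) (δ • z) = ((Pp.coeff k : sy_A N R) : ℍ → ℂ) z) :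
    ∃ Φ : Polynomial (Polynomial R), Φ.natDegree ≤ Pp.natDegree ∧ Φ.map (sy_toA N R) = Pp := by
  choose P hP using fun k => sy_exists_toA N R hqp (Pp.coeff k) (fun δ z => hinv δ k z)
  refine ⟨∑ k ∈ Finset.range (Pp.natDegree + 1), Polynomial.C (P k) * Polynomial.X ^ k, ?_, ?_⟩
  · refine Polynomial.natDegree_sum_le_of_forall_le _ _ fun k hk => ?_
    refine (Polynomial.natDegree_C_mul_X_pow_le _ _).trans ?_
    exact Nat.lt_succ_iff.mp (Finset.mem_range.mp hk)
  · rw [Polynomial.map_sum]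
    conv_rhs => rw [Pp.as_sum_range_C_mul_X_pow]
    refine Finset.sum_congr rfl fun k _ => ?_
    rw [Polynomial.map_mul, Polynomial.map_C, Polynomial.map_pow, Polynomial.map_X, hP k]

theorem sy_descend_monic (hqp : sy_QP N R) (Pp : Polynomial (sy_A N R)) (hm : Pp.Monic)
    (hinv : ∀ (δ : SL(2, ℤ)) (k : ℕ) (z : ℍ),
      ((Pp.coeff k : sy_A N R) : ℍ → ℂ) (δ • z) = ((Pp.coeff k : sy_A N R) : ℍ → ℂ) z) :
    ∃ Φ : Polynomial (Polynomial R), Φ.Monic ∧ Φ.natDegree = Pp.natDegree ∧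
      Φ.map (sy_toA N R) = Pp := by
  choose P hP using fun k => sy_exists_toA N R hqp (Pp.coeff k) (fun δ z => hinv δ k z)
  set n := Pp.natDegree with hn
  set r : Polynomial (Polynomial R) :=
    ∑ k ∈ Finset.range n, Polynomial.C (P k) * Polynomial.X ^ k with hr
  have hdeg : r.degree < (n : WithBot ℕ) := by
    rw [Polynomial.degree_lt_iff_coeff_zero]
    intro m hm
    rw [hr, Polynomial.finsetSum_coeff]
    refine Finset.sum_eq_zero fun k hk => ?_
    rw [Polynomial.coeff_C_mul_X_pow, if_neg]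
    have := Finset.mem_range.mp hk
    omega
  have hnat : (Polynomial.X ^ n + r).natDegree = n := by
    have h1 : (Polynomial.X ^ n : Polynomial (Polynomial R)).degree = n := Polynomial.degree_X_pow n
    have h2 : r.degree < (Polynomial.X ^ n : Polynomial (Polynomial R)).degree := by rw [h1]; exact hdeg
    rw [Polynomial.natDegree_add_eq_left_of_degree_lt h2, Polynomial.natDegree_X_pow]
  refine ⟨Polynomial.X ^ n + r, Polynomial.monic_X_pow_add hdeg, hnat, ?_⟩
  rw [Polynomial.map_add, Polynomial.map_pow, Polynomial.map_X, hr, Polynomial.map_sum]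
  conv_rhs => rw [hm.as_sum]
  congr 1
  refine Finset.sum_congr rfl fun k _ => ?_
  rw [Polynomial.map_mul, Polynomial.map_C, Polynomial.map_pow, Polynomial.map_X, hP k]

/-! ### Equivariant families -/

section Family

variable {ι : Type*} [Fintype ι] [DecidableEq ι]

theorem sy_coeff_apply (Pp : Polynomial (sy_A N R)) (k : ℕ) (z : ℍ) :
    ((Pp.coeff k : sy_A N R) : ℍ → ℂ) z = (Pp.map (sy_ev N R z)).coeff k := by
  rw [Polynomial.coeff_map, sy_ev_apply]

omit [DecidableEq ι] in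
/-- `∏ (X - g i)` has `SL(2,ℤ)`-invariant coefficients for an equivariant family `g` -/
theorem sy_prod_inv (g : ι → sy_A N R) (σ : SL(2, ℤ) → Equiv.Perm ι)
    (hg : ∀ (δ : SL(2, ℤ)) (i : ι) (z : ℍ), (g i : ℍ → ℂ) (δ • z) = (g (σ δ i) : ℍ → ℂ) z)
    (δ : SL(2, ℤ)) (k : ℕ) (z : ℍ) :
    (((∏ i, (Polynomial.X - Polynomial.C (g i))).coeff k : sy_A N R) : ℍ → ℂ) (δ • z) =
      (((∏ i, (Polynomial.X - Polynomial.C (g i))).coeff k : sy_A N R) : ℍ → ℂ) z := by
  rw [sy_coeff_apply, sy_coeff_apply]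
  congr 1
  simp only [Polynomial.map_prod, Polynomial.map_sub, Polynomial.map_X, Polynomial.map_C,
    sy_ev_apply]
  refine Eq.trans (Finset.prod_congr rfl fun i _ => ?_)
    (Equiv.prod_comp (σ δ)
      (fun i => (Polynomial.X - Polynomial.C ((g i : ℍ → ℂ) z) : Polynomial ℂ)))
  rw [hg δ i z]

/-- the Lagrange sum `∑ u i ∏_{k ≠ i} (X - g k)` has invariant coefficients -/
theorem sy_lagrange_inv (g u : ι → sy_A N R) (σ : SL(2, ℤ) → Equiv.Perm ι)
    (hg : ∀ (δ : SL(2, ℤ)) (i : ι) (z : ℍ), (g i : ℍ → ℂ) (δ • z) = (g (σ δ i) : ℍ → ℂ) z)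
    (hu : ∀ (δ : SL(2, ℤ)) (i : ι) (z : ℍ), (u i : ℍ → ℂ) (δ • z) = (u (σ δ i) : ℍ → ℂ) z)
    (δ : SL(2, ℤ)) (k : ℕ) (z : ℍ) :
    (((∑ i, Polynomial.C (u i) * ∏ k ∈ Finset.univ.erase i,
        (Polynomial.X - Polynomial.C (g k))).coeff k : sy_A N R) : ℍ → ℂ) (δ • z) =
      (((∑ i, Polynomial.C (u i) * ∏ k ∈ Finset.univ.erase i,
        (Polynomial.X - Polynomial.C (g k))).coeff k : sy_A N R) : ℍ → ℂ) z := by
  rw [sy_coeff_apply, sy_coeff_apply]
  congr 1
  simp only [Polynomial.map_sum, Polynomial.map_mul, Polynomial.map_prod, Polynomial.map_sub,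
    Polynomial.map_X, Polynomial.map_C, sy_ev_apply]
  refine Eq.trans (Finset.sum_congr rfl fun i _ => ?_)
    (Equiv.sum_comp (σ δ)
      (fun i => (Polynomial.C ((u i : ℍ → ℂ) z) * ∏ k ∈ Finset.univ.erase i,
        (Polynomial.X - Polynomial.C ((g k : ℍ → ℂ) z)) : Polynomial ℂ)))
  rw [hu δ i z]
  congr 1
  refine Finset.prod_equiv (σ δ) ?_ ?_
  · intro k
    simp
  · intro k _
    rw [hg δ k z]

omit [DecidableEq ι] in
/-- **(SYM), product form.** -/
theorem sy_family_prod (hqp : sy_QP N R) (g : ι → sy_A N R) (σ : SL(2, ℤ) → Equiv.Perm ι)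
    (hg : ∀ (δ : SL(2, ℤ)) (i : ι) (z : ℍ), (g i : ℍ → ℂ) (δ • z) = (g (σ δ i) : ℍ → ℂ) z) :
    ∃ Φ : Polynomial (Polynomial R), Φ.Monic ∧ Φ.natDegree = Fintype.card ι ∧
      Φ.map (sy_toA N R) = ∏ i, (Polynomial.X - Polynomial.C (g i)) := by
  have hm : (∏ i, (Polynomial.X - Polynomial.C (g i))).Monic :=
    Polynomial.monic_prod_of_monic _ _ fun i _ => Polynomial.monic_X_sub_C (g i)
  obtain ⟨Φ, h1, h2, h3⟩ := sy_descend_monic N R hqp _ hm (sy_prod_inv N R g σ hg)
  refine ⟨Φ, h1, ?_, h3⟩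
  rw [h2, Polynomial.natDegree_prod_of_monic _ _ fun i _ => Polynomial.monic_X_sub_C (g i)]
  simp

/-- **(SYM), Lagrange form.** -/
theorem sy_family_lagrange (hqp : sy_QP N R) (g u : ι → sy_A N R)
    (σ : SL(2, ℤ) → Equiv.Perm ι)
    (hg : ∀ (δ : SL(2, ℤ)) (i : ι) (z : ℍ), (g i : ℍ → ℂ) (δ • z) = (g (σ δ i) : ℍ → ℂ) z)
    (hu : ∀ (δ : SL(2, ℤ)) (i : ι) (z : ℍ), (u i : ℍ → ℂ) (δ • z) = (u (σ δ i) : ℍ → ℂ) z) :
    ∃ G : Polynomial (Polynomial R),
      G.map (sy_toA N R) = ∑ i, Polynomial.C (u i) * ∏ k ∈ Finset.univ.erase i,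
        (Polynomial.X - Polynomial.C (g k)) := by
  obtain ⟨G, -, hG⟩ := sy_descend N R hqp _ (sy_lagrange_inv N R g u σ hg hu)
  exact ⟨G, hG⟩

/-! ### Formal versions -/

omit [DecidableEq ι] in
theorem sy_map_germ_prod (g : ι → sy_A N R) (Φ : Polynomial (Polynomial R))
    (h : Φ.map (sy_toA N R) = ∏ i, (Polynomial.X - Polynomial.C (g i))) :
    Φ.map (sy_phiJ N R) = ∏ i, (Polynomial.X - Polynomial.C (sy_germ N R (g i))) := by
  have := congrArg (Polynomial.map (sy_germ N R)) h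
  rw [Polynomial.map_map] at this
  rw [sy_phiJ, this]
  simp only [Polynomial.map_prod, Polynomial.map_sub, Polynomial.map_X, Polynomial.map_C]

theorem sy_map_germ_lagrange (g u : ι → sy_A N R) (G : Polynomial (Polynomial R))
    (h : G.map (sy_toA N R) = ∑ i, Polynomial.C (u i) * ∏ k ∈ Finset.univ.erase i,
        (Polynomial.X - Polynomial.C (g k))) :
    G.map (sy_phiJ N R) = ∑ i, Polynomial.C (sy_germ N R (u i)) * ∏ k ∈ Finset.univ.erase i,
        (Polynomial.X - Polynomial.C (sy_germ N R (g k))) := by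
  have := congrArg (Polynomial.map (sy_germ N R)) h
  rw [Polynomial.map_map] at this
  rw [sy_phiJ, this]
  simp only [Polynomial.map_sum, Polynomial.map_mul, Polynomial.map_prod, Polynomial.map_sub,
    Polynomial.map_X, Polynomial.map_C]

end Family

end Fermat.Agent.S28
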