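import Mathlib
import Fermat.Agent.S28.QExpGerm
import Fermat.Agent.S28.Sym.Descend
import Fermat.Agent.S28.Formal.Datum

/-!
# S28 (Igusa), block W2c: (SYM) in the shape of the architect's `IgDatum`

* `sy_qp`: the `q`-expansion principle `sy_QP N R` for every subring `R ⊆ ℂ` (from W2a);
* transfer of the identities over `R` to `ℂ`: polynomials over `ℂ[J]` with coefficients in `R`,
  evaluated with `fs_evalJ ℂ N` (`J ↦ j(t^N)`), products / Lagrange sums of the germs
  `fi_germ N (g i)`.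
-/

set_option autoImplicit false

open UpperHalfPlane ModularForm Filter Topology Function Complex CongruenceSubgroup Polynomial
open scoped MatrixGroups Manifold Real
open Fermat.Agent.S23 (alphaN)
open Fermat.Agent.S24

namespace Fermat.Agent.S28

variable (N : ℕ) [NeZero N] (R : Subring ℂ)

/-- the `q`-expansion principle over every subring of `ℂ` (block W2a) -/
theorem sy_qp : sy_QP N R := by
  intro h hh hinv
  obtain ⟨hm, hP, L, hL⟩ := hh
  refine qp_of_germ N R hm hinv hP (fun i => ?_)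
  rw [hL, ModularCurve.coeffMap_coeff]
  exact (L.coeff i).2

/-- compatibility of `J ↦ j(t^N)` over `R` and over `ℂ` -/
theorem sy_coeffMap_comp_phiJ :
    (ModularCurve.coeffMap R.subtype).comp (sy_phiJ N R) =
      (fs_evalJ ℂ N).comp (Polynomial.mapRingHom R.subtype) := by
  apply Polynomial.ringHom_ext
  · intro c
    rw [sy_phiJ_eq]
    simp only [RingHom.comp_apply, Polynomial.coe_eval₂RingHom, Polynomial.eval₂_C,
      Polynomial.coe_mapRingHom, Polynomial.map_C]
    rw [fs_evalJ, Polynomial.coe_eval₂RingHom, Polynomial.eval₂_C, HahnSeries.C_apply,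
      ModularCurve.coeffMap_single, HahnSeries.C_apply]
  · rw [sy_phiJ_eq]
    simp only [RingHom.comp_apply, Polynomial.coe_eval₂RingHom, Polynomial.eval₂_X,
      Polynomial.coe_mapRingHom, Polynomial.map_X]
    rw [fs_evalJ, Polynomial.coe_eval₂RingHom, Polynomial.eval₂_X]
    rw [fs_jT, ModularCurve.jqNModC, sy_coeffMap_qExpand, fs_coeffMap_jqModC]

theorem sy_map_complex (P : Polynomial (Polynomial R)) :
    (P.map (Polynomial.mapRingHom R.subtype)).map (fs_evalJ ℂ N) =
      (P.map (sy_phiJ N R)).map (ModularCurve.coeffMap R.subtype) := by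
  rw [Polynomial.map_map, Polynomial.map_map, sy_coeffMap_comp_phiJ]

theorem sy_coeff_mem (P : Polynomial (Polynomial R)) (i k : ℕ) :
    ((P.map (Polynomial.mapRingHom R.subtype)).coeff i).coeff k ∈ R := by
  rw [Polynomial.coeff_map, Polynomial.coe_mapRingHom, Polynomial.coeff_map]
  exact ((P.coeff i).coeff k).2

section Family

variable {ι : Type*} [Fintype ι] [DecidableEq ι]

omit [DecidableEq ι] in
/-- **(SYM) over `ℂ`, product form**: for an `SL(2,ℤ)`-equivariant family `g` in `sy_A N R`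
there is a monic `P ∈ ℂ[J][X]` of degree `|ι|` with coefficients in `R` such that
`P(j(t^N), X) = ∏ (X - germ (g i))`. -/
theorem sy_family_prod_C (g : ι → sy_A N R) (σ : SL(2, ℤ) → Equiv.Perm ι)
    (hg : ∀ (δ : SL(2, ℤ)) (i : ι) (z : ℍ), (g i : ℍ → ℂ) (δ • z) = (g (σ δ i) : ℍ → ℂ) z) :
    ∃ Φ : Polynomial (Polynomial R), Φ.Monic ∧ Φ.natDegree = Fintype.card ι ∧
      Φ.map (sy_phiJ N R) = ∏ i, (X - C (sy_germ N R (g i))) ∧
      (Φ.map (Polynomial.mapRingHom R.subtype)).map (fs_evalJ ℂ N) =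
        ∏ i, (X - C (fi_germ N (g i : ℍ → ℂ))) := by
  obtain ⟨Φ, h1, h2, h3⟩ := sy_family_prod N R (sy_qp N R) g σ hg
  have h4 := sy_map_germ_prod N R g Φ h3
  refine ⟨Φ, h1, h2, h4, ?_⟩
  rw [sy_map_complex, h4]
  simp only [Polynomial.map_prod, Polynomial.map_sub, Polynomial.map_X, Polynomial.map_C,
    ← sy_germ_spec]

/-- **(SYM) over `ℂ`, Lagrange form.** -/
theorem sy_family_lagrange_C (g u : ι → sy_A N R) (σ : SL(2, ℤ) → Equiv.Perm ι)
    (hg : ∀ (δ : SL(2, ℤ)) (i : ι) (z : ℍ), (g i : ℍ → ℂ) (δ • z) = (g (σ δ i) : ℍ → ℂ) z)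
    (hu : ∀ (δ : SL(2, ℤ)) (i : ι) (z : ℍ), (u i : ℍ → ℂ) (δ • z) = (u (σ δ i) : ℍ → ℂ) z) :
    ∃ G : Polynomial (Polynomial R),
      G.map (sy_phiJ N R) = ∑ i, C (sy_germ N R (u i)) * ∏ k ∈ Finset.univ.erase i,
        (X - C (sy_germ N R (g k))) ∧
      (G.map (Polynomial.mapRingHom R.subtype)).map (fs_evalJ ℂ N) =
        ∑ i, C (fi_germ N (u i : ℍ → ℂ)) * ∏ k ∈ Finset.univ.erase i,
          (X - C (fi_germ N (g k : ℍ → ℂ))) := by
  obtain ⟨G, hG⟩ := sy_family_lagrange N R (sy_qp N R) g u σ hg hu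
  have h4 := sy_map_germ_lagrange N R g u G hG
  refine ⟨G, h4, ?_⟩
  rw [sy_map_complex, h4]
  simp only [Polynomial.map_sum, Polynomial.map_mul, Polynomial.map_prod, Polynomial.map_sub,
    Polynomial.map_X, Polynomial.map_C, ← sy_germ_spec]

end Family

end Fermat.Agent.S28
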