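import Mathlib
import Fermat.Agent.S28.Sym.Complex
import Fermat.Agent.S28.Analytic.Units
import Fermat.Agent.S28.Comb.HNFTrans

/-!
# S28 (Igusa), block W2c: the families of conjugates indexed by Hermite normal forms

For `α ∈ hnf_I N` we choose `γ_α ∈ SL(2,ℤ)` with `∞ · γ_α = α` and put, for `m ∣ N`,
`Y m α = j_m ∘ γ_α`, `U m α = u_m ∘ γ_α`, `V m α = (u_m ∘ γ_α)⁻¹`, as elements of `sy_A N R`
(`R ∋ ζ_N`, and `R ∋ 1/a` for `a ∣ N` in the case of `V`).  They are `SL(2,ℤ)`-equivariant for the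
right action `hnf_perm`, and their `t`-expansions are the formal series `fs_jm`, `fs_um`,
`fs_umInv` with the Hermite data `(hnf_A α m, hnf_B α m, m / hnf_A α m)`.
-/

set_option autoImplicit false

open UpperHalfPlane ModularForm Filter Topology Function Complex CongruenceSubgroup Polynomial
open scoped MatrixGroups Manifold Real
open Fermat.Agent.S23 (alphaN)
open Fermat.Agent.S24

namespace Fermat.Agent.S28

variable (N : ℕ) [NeZero N] (R : Subring ℂ)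

/-! ### `ζ_N` as a unit of `R`, and the formal conjugates over `R` -/

/-- `ζ_N` as a unit of a subring containing it -/
noncomputable def sy_zetaU (hζ : fi_zeta N ∈ R) : Rˣ where
  val := ⟨fi_zeta N, hζ⟩
  inv := ⟨fi_zeta N ^ (N - 1), pow_mem hζ _⟩
  val_inv := by
    apply Subtype.ext
    show fi_zeta N * fi_zeta N ^ (N - 1) = 1
    rw [← pow_succ', Nat.sub_add_cancel (Nat.one_le_iff_ne_zero.mpr (NeZero.ne N))]
    exact (fi_zeta_isPrimitiveRoot N).pow_eq_one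
  inv_val := by
    apply Subtype.ext
    show fi_zeta N ^ (N - 1) * fi_zeta N = 1
    rw [← pow_succ, Nat.sub_add_cancel (Nat.one_le_iff_ne_zero.mpr (NeZero.ne N))]
    exact (fi_zeta_isPrimitiveRoot N).pow_eq_one

variable (hζ : fi_zeta N ∈ R)

theorem sy_map_zetaU :
    Units.map ((R.subtype : R →+* ℂ) : R →* ℂ) (sy_zetaU N R hζ) = tx_zeta N :=
  Units.ext rfl

theorem sy_map_root (b d : ℕ) :
    Units.map ((R.subtype : R →+* ℂ) : R →* ℂ) (fs_root (sy_zetaU N R hζ) N b d) =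
      fs_root (tx_zeta N) N b d := by
  rw [fs_root, fs_root, map_pow, sy_map_zetaU]

theorem sy_zetaU_isPrimitiveRoot : IsPrimitiveRoot (sy_zetaU N R hζ) N := by
  have h : IsPrimitiveRoot (fi_zeta N) N := fi_zeta_isPrimitiveRoot N
  have h1 : IsPrimitiveRoot (⟨fi_zeta N, hζ⟩ : R) N :=
    IsPrimitiveRoot.of_map_of_injective (f := R.subtype) h Subtype.val_injective
  exact IsPrimitiveRoot.coe_units_iff.mp h1

omit hζ in
/-- inverses of divisors of `N` lie in a subring containing `1/N` -/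
theorem sy_inv_mem (hNi : ((N : ℂ))⁻¹ ∈ R) (a : ℕ) (ha : a ∣ N) : ((a : ℂ))⁻¹ ∈ R := by
  obtain ⟨b, hb⟩ := ha
  have hN : (N : ℂ) ≠ 0 := Nat.cast_ne_zero.mpr (NeZero.ne N)
  have ha0 : (a : ℂ) ≠ 0 := by
    intro h
    apply hN
    rw [hb, Nat.cast_mul, h, zero_mul]
  have hb0 : (b : ℂ) ≠ 0 := by
    intro h
    apply hN
    rw [hb, Nat.cast_mul, h, mul_zero]
  have h1 : ((a : ℂ))⁻¹ = (b : ℂ) * ((N : ℂ))⁻¹ := by
    rw [hb, Nat.cast_mul]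
    field_simp
  rw [h1]
  exact mul_mem (natCast_mem _ b) hNi

omit hζ in
theorem sy_div_mul_inv (a : ℕ) (ha : a ∣ N) :
    ((N / a : ℕ) : ℂ) * ((N : ℂ))⁻¹ = ((a : ℂ))⁻¹ := by
  obtain ⟨b, hb⟩ := ha
  have hN : (N : ℂ) ≠ 0 := Nat.cast_ne_zero.mpr (NeZero.ne N)
  have ha0 : a ≠ 0 := by
    rintro rfl
    exact NeZero.ne N (by rw [hb, zero_mul])
  have ha0' : (a : ℂ) ≠ 0 := Nat.cast_ne_zero.mpr ha0
  have hb0 : (b : ℂ) ≠ 0 := by
    intro h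
    apply hN
    rw [hb, Nat.cast_mul, h, mul_zero]
  have h2 : N / a = b := by
    rw [hb]
    exact Nat.mul_div_cancel_left b (Nat.pos_of_ne_zero ha0)
  rw [h2, hb, Nat.cast_mul]
  field_simp

theorem sy_coeffMap_C (r : R) :
    ModularCurve.coeffMap R.subtype (HahnSeries.C r) = HahnSeries.C (r : ℂ) := by
  rw [HahnSeries.C_apply, ModularCurve.coeffMap_single, HahnSeries.C_apply]
  rfl

theorem sy_coeffMap_jm (a b d : ℕ) :
    ModularCurve.coeffMap R.subtype (fs_jm (sy_zetaU N R hζ) N a b d) =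
      fs_jm (tx_zeta N) N a b d := by
  rw [fs_jm, fs_jm, fs_coeffMap_y, sy_map_root]

theorem sy_coeffMap_um (a b d : ℕ) :
    ModularCurve.coeffMap R.subtype (fs_um (sy_zetaU N R hζ) N a b d) =
      fs_um (tx_zeta N) N a b d := by
  rw [fs_um, fs_um, map_mul, map_mul, sy_coeffMap_C, fs_coeffMap_subst, fs_coeffMap_subst,
    fs_coeffMap_Delta, fs_coeffMap_DeltaInv, sy_map_root, map_one]
  push_cast
  rfl

theorem sy_coeffMap_umInv (a b d : ℕ) (ainv : R) :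
    ModularCurve.coeffMap R.subtype (fs_umInv (sy_zetaU N R hζ) N a b d ainv) =
      fs_umInv (tx_zeta N) N a b d (ainv : ℂ) := by
  rw [fs_umInv, fs_umInv, map_mul, map_mul, sy_coeffMap_C, fs_coeffMap_subst, fs_coeffMap_subst,
    fs_coeffMap_Delta, fs_coeffMap_DeltaInv, sy_map_root, map_one]
  push_cast
  rfl

/-! ### Admissibility of the conjugates -/

section Adm

variable {m : ℕ} [NeZero m] (hmN : m ∣ N) (γ : SL(2, ℤ))

include hζ hmN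

theorem sy_P_yfun : sy_P N R (tx_yfun m γ) := by
  obtain ⟨b, -, h1, -, -⟩ := tx_exists_expansion N hmN γ
  exact ⟨tx_mdiff_yfun N hmN γ, tx_fi_P_yfun N hmN γ,
    fs_jm (sy_zetaU N R hζ) N (ig_a m γ) b (m / ig_a m γ), by rw [h1, sy_coeffMap_jm]⟩

theorem sy_P_ufun : sy_P N R (tx_ufun m γ) := by
  obtain ⟨b, -, -, h1, -⟩ := tx_exists_expansion N hmN γ
  exact ⟨tx_mdiff_ufun N hmN γ, tx_fi_P_ufun N hmN γ,
    fs_um (sy_zetaU N R hζ) N (ig_a m γ) b (m / ig_a m γ), by rw [h1, sy_coeffMap_um]⟩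

theorem sy_P_ufun_inv (hinv : ∀ a : ℕ, a ∣ N → ((a : ℂ))⁻¹ ∈ R) :
    sy_P N R (fun z => (tx_ufun m γ z)⁻¹) := by
  obtain ⟨b, -, -, -, h1⟩ := tx_exists_expansion N hmN γ
  refine ⟨tx_mdiff_ufun_inv N hmN γ, tx_fi_P_ufun_inv N hmN γ,
    fs_umInv (sy_zetaU N R hζ) N (ig_a m γ) b (m / ig_a m γ)
      ⟨((ig_a m γ : ℂ))⁻¹, hinv _ ((ig_a_dvd m γ).trans hmN)⟩, ?_⟩
  rw [h1, sy_coeffMap_umInv]

end Adm

/-! ### Representatives and dependence on the index only -/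

/-- a representative `γ` with `∞ · γ = α` -/
noncomputable def sy_rep (α : hnf_I N) : SL(2, ℤ) :=
  (hnf_act_inf_surjective (NeZero.ne N) α).choose

theorem sy_rep_spec (α : hnf_I N) : hnf_act (hnf_inf N) (sy_rep N α) = α :=
  (hnf_act_inf_surjective (NeZero.ne N) α).choose_spec

theorem sy_mem_Gamma0 {γ₁ γ₂ : SL(2, ℤ)}
    (h : hnf_act (hnf_inf N) γ₁ = hnf_act (hnf_inf N) γ₂) : γ₁ * γ₂⁻¹ ∈ Gamma0 N := by
  rw [Gamma0_mem, ZMod.intCast_zmod_eq_zero_iff_dvd]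
  exact (hnf_act_inf_eq_iff_dvd (NeZero.ne N) γ₁ γ₂).mp h

theorem sy_yfun_congr {m : ℕ} [NeZero m] (hmN : m ∣ N) {γ₁ γ₂ : SL(2, ℤ)}
    (h : hnf_act (hnf_inf N) γ₁ = hnf_act (hnf_inf N) γ₂) (z : ℍ) :
    tx_yfun m γ₁ z = tx_yfun m γ₂ z := by
  have := tx_yfun_of_mem_Gamma0 hmN (γ₁ * γ₂⁻¹) γ₂ (sy_mem_Gamma0 N h) z
  rwa [inv_mul_cancel_right] at this

theorem sy_ufun_congr {m : ℕ} [NeZero m] (hmN : m ∣ N) {γ₁ γ₂ : SL(2, ℤ)}
    (h : hnf_act (hnf_inf N) γ₁ = hnf_act (hnf_inf N) γ₂) (z : ℍ) :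
    tx_ufun m γ₁ z = tx_ufun m γ₂ z := by
  have := tx_ufun_of_mem_Gamma0 hmN (γ₁ * γ₂⁻¹) γ₂ (sy_mem_Gamma0 N h) z
  rwa [inv_mul_cancel_right] at this

theorem sy_rep_act (α : hnf_I N) (δ : SL(2, ℤ)) :
    hnf_act (hnf_inf N) (sy_rep N α * δ) =
      hnf_act (hnf_inf N) (sy_rep N (hnf_perm (NeZero.ne N) δ α)) := by
  rw [hnf_act_mul (NeZero.ne N), sy_rep_spec, sy_rep_spec, hnf_perm_apply]

/-! ### The families -/

section Fam

variable (m : ℕ) [NeZero m] (hmN : m ∣ N)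

/-- the conjugates of `j_m`, indexed by `hnf_I N` -/
noncomputable def sy_Y (α : hnf_I N) : sy_A N R :=
  ⟨tx_yfun m (sy_rep N α), sy_P_yfun N R hζ hmN _⟩

/-- the conjugates of the modular unit `u_m` -/
noncomputable def sy_U (α : hnf_I N) : sy_A N R :=
  ⟨tx_ufun m (sy_rep N α), sy_P_ufun N R hζ hmN _⟩

/-- the inverses of the conjugates of the modular unit `u_m` -/
noncomputable def sy_V (hNi : ((N : ℂ))⁻¹ ∈ R) (α : hnf_I N) : sy_A N R :=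
  ⟨fun z => (tx_ufun m (sy_rep N α) z)⁻¹, sy_P_ufun_inv N R hζ hmN _ (sy_inv_mem N R hNi)⟩

theorem sy_Y_equiv (δ : SL(2, ℤ)) (α : hnf_I N) (z : ℍ) :
    (sy_Y N R hζ m hmN α : ℍ → ℂ) (δ • z) =
      (sy_Y N R hζ m hmN (hnf_perm (NeZero.ne N) δ α) : ℍ → ℂ) z := by
  show tx_yfun m (sy_rep N α) (δ • z) = tx_yfun m (sy_rep N (hnf_perm (NeZero.ne N) δ α)) z
  rw [← tx_yfun_mul]
  exact sy_yfun_congr N hmN (sy_rep_act N α δ) z

theorem sy_U_equiv (δ : SL(2, ℤ)) (α : hnf_I N) (z : ℍ) :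
    (sy_U N R hζ m hmN α : ℍ → ℂ) (δ • z) =
      (sy_U N R hζ m hmN (hnf_perm (NeZero.ne N) δ α) : ℍ → ℂ) z := by
  show tx_ufun m (sy_rep N α) (δ • z) = tx_ufun m (sy_rep N (hnf_perm (NeZero.ne N) δ α)) z
  rw [← tx_ufun_mul]
  exact sy_ufun_congr N hmN (sy_rep_act N α δ) z

theorem sy_V_equiv (hNi : ((N : ℂ))⁻¹ ∈ R) (δ : SL(2, ℤ)) (α : hnf_I N)
    (z : ℍ) :
    (sy_V N R hζ m hmN hNi α : ℍ → ℂ) (δ • z) =
      (sy_V N R hζ m hmN hNi (hnf_perm (NeZero.ne N) δ α) : ℍ → ℂ) z := by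
  show (tx_ufun m (sy_rep N α) (δ • z))⁻¹ =
    (tx_ufun m (sy_rep N (hnf_perm (NeZero.ne N) δ α)) z)⁻¹
  rw [← tx_ufun_mul]
  exact congrArg _ (sy_ufun_congr N hmN (sy_rep_act N α δ) z)

/-! ### Their `t`-expansions -/

include hmN in
theorem sy_hnf_data (α : hnf_I N) :
    0 < hnf_A α m ∧ 0 < m / hnf_A α m ∧
    ∃ δ : SL(2, ℤ), !![(m : ℤ) * (sy_rep N α) 0 0, (m : ℤ) * (sy_rep N α) 0 1;
        (sy_rep N α) 1 0, (sy_rep N α) 1 1] =
      (δ : Matrix (Fin 2) (Fin 2) ℤ) *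
        !![(hnf_A α m : ℤ), (hnf_B α m : ℤ); 0, ((m / hnf_A α m : ℕ) : ℤ)] := by
  have hm : 0 < m := Nat.pos_of_ne_zero (NeZero.ne m)
  have hdvd : hnf_A α m ∣ m := hnf_A_dvd' α m
  have ha : 0 < hnf_A α m := Nat.pos_of_dvd_of_pos hdvd hm
  refine ⟨ha, Nat.div_pos (Nat.le_of_dvd hm hdvd) ha, ?_⟩
  have h := hnf_diag_mul (NeZero.ne N) hmN (sy_rep N α)
  rwa [sy_rep_spec] at h

theorem sy_fi_germ_Y (α : hnf_I N) :
    fi_germ N (sy_Y N R hζ m hmN α : ℍ → ℂ) =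
      fs_jm (tx_zeta N) N (hnf_A α m) (hnf_B α m) (m / hnf_A α m) := by
  obtain ⟨ha, hd, δ, hmat⟩ := sy_hnf_data N m hmN α
  exact tx_germ_yfun_of_hnf N hmN ha hd hmat

theorem sy_fi_germ_U (α : hnf_I N) :
    fi_germ N (sy_U N R hζ m hmN α : ℍ → ℂ) =
      fs_um (tx_zeta N) N (hnf_A α m) (hnf_B α m) (m / hnf_A α m) := by
  obtain ⟨ha, hd, δ, hmat⟩ := sy_hnf_data N m hmN α
  exact tx_germ_ufun_of_hnf N hmN ha hd hmat

theorem sy_fi_germ_V (hNi : ((N : ℂ))⁻¹ ∈ R) (α : hnf_I N) :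
    fi_germ N (sy_V N R hζ m hmN hNi α : ℍ → ℂ) =
      (fs_um (tx_zeta N) N (hnf_A α m) (hnf_B α m) (m / hnf_A α m))⁻¹ := by
  obtain ⟨ha, hd, δ, hmat⟩ := sy_hnf_data N m hmN α
  have h := tx_germ_ufun_inv_of_hnf N hmN ha hd hmat
  have ha' : ((hnf_A α m : ℕ) : ℂ) ≠ 0 := Nat.cast_ne_zero.mpr ha.ne'
  have hmul := fs_um_mul_umInv (tx_zeta N) N (hnf_A α m) (hnf_B α m) (m / hnf_A α m)
    (((hnf_A α m : ℕ) : ℂ))⁻¹ (mul_inv_cancel₀ ha')
  show fi_germ N (fun z => (tx_ufun m (sy_rep N α) z)⁻¹) = _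
  rw [h]
  exact eq_inv_of_mul_eq_one_right hmul

theorem sy_germ_Y (α : hnf_I N) :
    sy_germ N R (sy_Y N R hζ m hmN α) =
      fs_jm (sy_zetaU N R hζ) N (hnf_A α m) (hnf_B α m) (m / hnf_A α m) :=
  sy_germ_eq N R _ (by rw [sy_fi_germ_Y, sy_coeffMap_jm])

theorem sy_germ_U (α : hnf_I N) :
    sy_germ N R (sy_U N R hζ m hmN α) =
      fs_um (sy_zetaU N R hζ) N (hnf_A α m) (hnf_B α m) (m / hnf_A α m) :=
  sy_germ_eq N R _ (by rw [sy_fi_germ_U, sy_coeffMap_um])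

theorem sy_germ_V (hNi : ((N : ℂ))⁻¹ ∈ R) (α : hnf_I N) :
    sy_germ N R (sy_V N R hζ m hmN hNi α) =
      fs_umInv (sy_zetaU N R hζ) N (hnf_A α m) (hnf_B α m) (m / hnf_A α m)
        (((N / hnf_A α m : ℕ) : R) * (⟨((N : ℂ))⁻¹, hNi⟩ : R)) := by
  refine sy_germ_eq N R _ ?_
  obtain ⟨ha, hd, δ, hmat⟩ := sy_hnf_data N m hmN α
  have h := tx_germ_ufun_inv_of_hnf N hmN ha hd hmat
  show fi_germ N (fun z => (tx_ufun m (sy_rep N α) z)⁻¹) = _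
  rw [h, sy_coeffMap_umInv]
  congr 1
  have hdvd : hnf_A α m ∣ N := (hnf_A_dvd' α m).trans hmN
  push_cast
  exact (sy_div_mul_inv N _ hdvd).symm

end Fam

end Fermat.Agent.S28
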