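import Mathlib
import Fermat.Agent.S28.Sym.Conjugates

/-!
# S28 (Igusa), block W2c: the analytic `IgDatum`

`sy_datum N R hζ hNi : IgDatum ↥R (sy_zetaU N R hζ) N` for every subring `R ⊆ ℂ` containing
`ζ_N = exp (2 π i / N)` and `1/N` (e.g. `R = ℤ[ζ_N, 1/N]`, see `sy_datum0`), with index type
`hnf_I N`, `A = hnf_A`, `B = hnf_B`, `x₀ = hnf_inf N`.
-/

set_option autoImplicit false

open UpperHalfPlane ModularForm Filter Topology Function Complex CongruenceSubgroup Polynomial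
open scoped MatrixGroups Manifold Real
open Fermat.Agent.S23 (alphaN)
open Fermat.Agent.S24

namespace Fermat.Agent.S28

variable (N : ℕ) [NeZero N] (R : Subring ℂ) (hζ : fi_zeta N ∈ R)

theorem sy_phiJ_eq_evalJ : sy_phiJ N R = fs_evalJ R N :=
  sy_phiJ_eq N R

/-! ### Existence of the polynomials -/

/-- the modular polynomial `Φ` over `R[J]` -/
theorem sy_exists_Phi :
    ∃ Φ : Polynomial (Polynomial R), Φ.Monic ∧ Φ.natDegree = Fintype.card (hnf_I N) ∧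
      Φ.map (fs_evalJ R N) = ∏ x : hnf_I N,
        (X - C (fs_jm (sy_zetaU N R hζ) N (hnf_A x N) (hnf_B x N) (N / hnf_A x N))) ∧
      (Φ.map (Polynomial.mapRingHom R.subtype)).map (fs_evalJ ℂ N) = ∏ x : hnf_I N,
        (X - C (fs_jm (tx_zeta N) N (hnf_A x N) (hnf_B x N) (N / hnf_A x N))) := by
  obtain ⟨Φ, h1, h2, h3, h4⟩ := sy_family_prod_C N R (sy_Y N R hζ N dvd_rfl)
    (fun δ => hnf_perm (NeZero.ne N) δ) (fun δ α z => sy_Y_equiv N R hζ N dvd_rfl δ α z)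
  refine ⟨Φ, h1, h2, ?_, ?_⟩
  · rw [← sy_phiJ_eq_evalJ, h3]
    exact Finset.prod_congr rfl fun x _ => by rw [sy_germ_Y]
  · rw [h4]
    exact Finset.prod_congr rfl fun x _ => by rw [sy_fi_germ_Y]

section Level

variable {m : ℕ} (hmN : m ∣ N)

include hmN

theorem sy_exists_Up :
    ∃ P : Polynomial (Polynomial R),
      P.map (fs_evalJ R N) = ∏ x : hnf_I N,
        (X - C (fs_um (sy_zetaU N R hζ) N (hnf_A x m) (hnf_B x m) (m / hnf_A x m))) := by
  have : NeZero m := ⟨ne_zero_of_dvd_ne_zero (NeZero.ne N) hmN⟩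
  obtain ⟨Φ, -, -, h3, -⟩ := sy_family_prod_C N R (sy_U N R hζ m hmN)
    (fun δ => hnf_perm (NeZero.ne N) δ) (fun δ α z => sy_U_equiv N R hζ m hmN δ α z)
  refine ⟨Φ, ?_⟩
  rw [← sy_phiJ_eq_evalJ, h3]
  exact Finset.prod_congr rfl fun x _ => by rw [sy_germ_U]

theorem sy_exists_Um (hNi : ((N : ℂ))⁻¹ ∈ R) :
    ∃ P : Polynomial (Polynomial R),
      P.map (fs_evalJ R N) = ∏ x : hnf_I N,
        (X - C (fs_umInv (sy_zetaU N R hζ) N (hnf_A x m) (hnf_B x m) (m / hnf_A x m)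
          (((N / hnf_A x m : ℕ) : R) * (⟨((N : ℂ))⁻¹, hNi⟩ : R)))) := by
  have : NeZero m := ⟨ne_zero_of_dvd_ne_zero (NeZero.ne N) hmN⟩
  obtain ⟨Φ, -, -, h3, -⟩ := sy_family_prod_C N R (sy_V N R hζ m hmN hNi)
    (fun δ => hnf_perm (NeZero.ne N) δ) (fun δ α z => sy_V_equiv N R hζ m hmN hNi δ α z)
  refine ⟨Φ, ?_⟩
  rw [← sy_phiJ_eq_evalJ, h3]
  exact Finset.prod_congr rfl fun x _ => by rw [sy_germ_V]

theorem sy_exists_G :
    ∃ P : Polynomial (Polynomial R),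
      P.map (fs_evalJ R N) = ∑ x : hnf_I N,
        C (fs_um (sy_zetaU N R hζ) N (hnf_A x m) (hnf_B x m) (m / hnf_A x m)) *
          ∏ x' ∈ Finset.univ.erase x,
            (X - C (fs_jm (sy_zetaU N R hζ) N (hnf_A x' N) (hnf_B x' N) (N / hnf_A x' N))) := by
  have : NeZero m := ⟨ne_zero_of_dvd_ne_zero (NeZero.ne N) hmN⟩
  obtain ⟨G, h3, -⟩ := sy_family_lagrange_C N R (sy_Y N R hζ N dvd_rfl) (sy_U N R hζ m hmN)
    (fun δ => hnf_perm (NeZero.ne N) δ) (fun δ α z => sy_Y_equiv N R hζ N dvd_rfl δ α z)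
    (fun δ α z => sy_U_equiv N R hζ m hmN δ α z)
  refine ⟨G, ?_⟩
  rw [← sy_phiJ_eq_evalJ, h3]
  refine Finset.sum_congr rfl fun x _ => ?_
  rw [sy_germ_U]
  congr 1
  exact Finset.prod_congr rfl fun x' _ => by rw [sy_germ_Y]

/-- Lagrange form for the level-`m` conjugates of `j_m` (not a field of `IgDatum` v2) -/
theorem sy_exists_H :
    ∃ P : Polynomial (Polynomial R),
      P.map (fs_evalJ R N) = ∑ x : hnf_I N,
        C (fs_jm (sy_zetaU N R hζ) N (hnf_A x m) (hnf_B x m) (m / hnf_A x m)) *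
          ∏ x' ∈ Finset.univ.erase x,
            (X - C (fs_jm (sy_zetaU N R hζ) N (hnf_A x' N) (hnf_B x' N) (N / hnf_A x' N))) := by
  have : NeZero m := ⟨ne_zero_of_dvd_ne_zero (NeZero.ne N) hmN⟩
  obtain ⟨G, h3, -⟩ := sy_family_lagrange_C N R (sy_Y N R hζ N dvd_rfl) (sy_Y N R hζ m hmN)
    (fun δ => hnf_perm (NeZero.ne N) δ) (fun δ α z => sy_Y_equiv N R hζ N dvd_rfl δ α z)
    (fun δ α z => sy_Y_equiv N R hζ m hmN δ α z)
  refine ⟨G, ?_⟩
  rw [← sy_phiJ_eq_evalJ, h3]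
  refine Finset.sum_congr rfl fun x _ => ?_
  rw [sy_germ_Y]
  congr 1
  exact Finset.prod_congr rfl fun x' _ => by rw [sy_germ_Y]

end Level

/-! ### The datum -/

/-- **W2 output**: the analytic Igusa datum over a subring `R ⊆ ℂ` containing `ζ_N` and `1/N`. -/
noncomputable def sy_datum (hNi : ((N : ℂ))⁻¹ ∈ R) : IgDatum ↥R (sy_zetaU N R hζ) N where
  ι := hnf_I N
  fin := hnf_fintype N
  dec := hnf_decEq N
  A := hnf_A
  B := hnf_B
  x₀ := hnf_inf N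
  A_gcd := hnf_A_gcd (NeZero.ne N)
  A_x₀ := hnf_A_inf (NeZero.ne N)
  B_lt := fun x => hnf_B_lt x N (NeZero.ne N)
  inj := hnf_AB_inj (NeZero.ne N)
  Ninv := ⟨((N : ℂ))⁻¹, hNi⟩
  N_mul_Ninv := by
    apply Subtype.ext
    push_cast
    exact mul_inv_cancel₀ (Nat.cast_ne_zero.mpr (NeZero.ne N))
  Φ := (sy_exists_Phi N R hζ).choose
  Up := fun m => if h : m ∣ N then (sy_exists_Up N R hζ h).choose else 0
  Um := fun m => if h : m ∣ N then (sy_exists_Um N R hζ h hNi).choose else 0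
  G := fun m => if h : m ∣ N then (sy_exists_G N R hζ h).choose else 0
  Φ_eq := (sy_exists_Phi N R hζ).choose_spec.2.2.1
  Up_eq := fun m hm => by
    simp only [dif_pos hm]
    exact (sy_exists_Up N R hζ hm).choose_spec
  Um_eq := fun m hm => by
    simp only [dif_pos hm]
    exact (sy_exists_Um N R hζ hm hNi).choose_spec
  G_eq := fun m hm => by
    simp only [dif_pos hm]
    exact (sy_exists_G N R hζ hm).choose_spec

section props

variable (hNi : ((N : ℂ))⁻¹ ∈ R)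

theorem sy_datum_ι : (sy_datum N R hζ hNi).ι = hnf_I N := rfl

/-- `Φ` of the datum is monic -/
theorem sy_datum_Phi_monic : (sy_datum N R hζ hNi).Φ.Monic :=
  (sy_exists_Phi N R hζ).choose_spec.1

/-- `Φ` of the datum has degree `|hnf_I N|` -/
theorem sy_datum_Phi_natDegree :
    (sy_datum N R hζ hNi).Φ.natDegree = Fintype.card (hnf_I N) :=
  (sy_exists_Phi N R hζ).choose_spec.2.1

theorem sy_datum_card :
    Fintype.card (sy_datum N R hζ hNi).ι = Fintype.card (hnf_I N) := rfl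

/-- the identity for `Φ` over `ℂ` -/
theorem sy_datum_Phi_complex :
    ((sy_datum N R hζ hNi).Φ.map (Polynomial.mapRingHom R.subtype)).map (fs_evalJ ℂ N) =
      ∏ x : hnf_I N,
        (X - C (fs_jm (tx_zeta N) N (hnf_A x N) (hnf_B x N) (N / hnf_A x N))) :=
  (sy_exists_Phi N R hζ).choose_spec.2.2.2

end props

/-! ### The standard coefficient ring `ℤ[ζ_N, 1/N]` -/

/-- `R₀ = ℤ[ζ_N, 1/N]` -/
def sy_R0 : Subring ℂ := Subring.closure {fi_zeta N, ((N : ℂ))⁻¹}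

omit [NeZero N] in
theorem sy_zeta_mem_R0 : fi_zeta N ∈ sy_R0 N :=
  Subring.subset_closure (Set.mem_insert _ _)

omit [NeZero N] in
theorem sy_inv_mem_R0 : ((N : ℂ))⁻¹ ∈ sy_R0 N :=
  Subring.subset_closure (Set.mem_insert_of_mem _ rfl)

/-- `ζ_N` as a unit of `ℤ[ζ_N, 1/N]` -/
noncomputable def sy_zeta : (sy_R0 N)ˣ := sy_zetaU N (sy_R0 N) (sy_zeta_mem_R0 N)

theorem sy_zeta_isPrimitiveRoot : IsPrimitiveRoot (sy_zeta N) N :=
  sy_zetaU_isPrimitiveRoot N (sy_R0 N) (sy_zeta_mem_R0 N)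

theorem sy_zeta_coe : (((sy_zeta N : (sy_R0 N)ˣ) : sy_R0 N) : ℂ) = fi_zeta N := rfl

/-- the analytic Igusa datum with coefficients in `ℤ[ζ_N, 1/N]` -/
noncomputable def sy_datum0 : IgDatum ↥(sy_R0 N) (sy_zeta N) N :=
  sy_datum N (sy_R0 N) (sy_zeta_mem_R0 N) (sy_inv_mem_R0 N)

end Fermat.Agent.S28
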