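import Mathlib
import Fermat.Agent.S28.Core.Norm
import Fermat.Agent.S28.Sym.Datum

/-!
# S28 (Igusa): the modular equation `Φ(j(q), j(q^N)) = 0` in the `q`-variable

For every Igusa datum `D` over a field `K`, `D.Φ` kills `j(q^N)` over `K[j(q)]` inside `K((q))`;
specialised to the analytic datum over `ℂ`.
-/

set_option autoImplicit false

open ModularCurve Polynomial Finset

namespace Fermat.Agent.S28

section general

variable {K : Type*} [Field K] {ζ : Kˣ} {N : ℕ} [NeZero N] (D : IgDatum K ζ N)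

/-- `Z ↦ j(t^N)` is `Z ↦ j(q)` followed by `q ↦ t^N` -/
theorem sy_evalJ_eq_comp (R : Type*) [CommRing R] (N : ℕ) [NeZero N] :
    fs_evalJ R N = (qExpand R N).comp (Polynomial.eval₂RingHom HahnSeries.C (jqModC R)) := by
  refine Polynomial.ringHom_ext (fun c => ?_) ?_
  · rw [fs_evalJ, coe_eval₂RingHom, eval₂_C, RingHom.comp_apply, coe_eval₂RingHom, eval₂_C,
      qExpand_C]
  · rw [fs_evalJ, coe_eval₂RingHom, eval₂_X, RingHom.comp_apply, coe_eval₂RingHom, eval₂_X,
      fs_jT]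

/-- the modular equation in the `t`-variable -/
theorem sy_root_t : D.Φ.eval₂ (fs_evalJ K N) (D.y D.x₀) = 0 := by
  rw [Polynomial.eval₂_eq_eval_map, D.Φ_eq, Polynomial.eval_prod]
  refine Finset.prod_eq_zero (Finset.mem_univ D.x₀) ?_
  rw [Polynomial.eval_sub, Polynomial.eval_X, Polynomial.eval_C]
  exact sub_self _

/-- **the modular equation in the `q`-variable**: `Φ(j(q), j(q^N)) = 0` in `K((q))` -/
theorem sy_root_q :
    D.Φ.eval₂ (Polynomial.eval₂RingHom HahnSeries.C (jqModC K)) (qExpand K N (jqModC K)) = 0 := by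
  have h := sy_root_t D
  rw [D.nm_y_x₀, sy_evalJ_eq_comp, ← Polynomial.hom_eval₂] at h
  exact qExpand_injective (R := K) N (by rw [h, map_zero])

end general

section complex

open Fermat.Agent.S24

variable (N : ℕ) [NeZero N] (R : Subring ℂ) (hζ : fi_zeta N ∈ R) (hNi : ((N : ℂ))⁻¹ ∈ R)

/-- the modular equation for the analytic `Φ`, over `ℂ`, in the `q`-variable -/
theorem sy_Phi_root :
    ((sy_datum N R hζ hNi).Φ.map (Polynomial.mapRingHom R.subtype)).eval₂
      (Polynomial.eval₂RingHom HahnSeries.C (jqModC ℂ)) (qExpand ℂ N (jqModC ℂ)) = 0 :=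
  sy_root_q ((sy_datum N R hζ hNi).map R.subtype)

/-- the same for `R₀ = ℤ[ζ_N, 1/N]` -/
theorem sy_Phi0_root :
    ((sy_datum0 N).Φ.map (Polynomial.mapRingHom (sy_R0 N).subtype)).eval₂
      (Polynomial.eval₂RingHom HahnSeries.C (jqModC ℂ)) (qExpand ℂ N (jqModC ℂ)) = 0 :=
  sy_Phi_root N (sy_R0 N) (sy_zeta_mem_R0 N) (sy_inv_mem_R0 N)

end complex

end Fermat.Agent.S28
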